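/-
S44 / F / Dual (sub-architect helper100).  Shared definitions for `FDual`.

Notation: `K = ℚ̄`, `A ⊂ K` a valuation ring over `p`, `k = kA A` its residue field, `M` a level prime to
`p`, `F = FN M ⊂ K((q))`.

* `EA A M`    : the residue field of the Gauss valuation of `F`, a subfield of `k((q))`
                (`S28.Export.resField`); it contains `Fk A M`.
* `Linf M m`  : `L(m ∞)`, the functions of `F` whose only pole is the cusp `∞`, of order `≤ m`.
* `redE`      : the reduction of an element of `F ∩ A((q))`, as an element of `EA A M`.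
-/
import Fermat.Agent.S44.Defs
import Fermat.Agent.S44.F.Theta
import Fermat.Agent.S28.Export.Main
import Fermat.Agent.S17.W.Cusp
import Fermat.Prelude.Def_AlgebraicCurve_Repartitions

set_option autoImplicit false

noncomputable section

namespace Fermat.Agent.S44.F

open ModularCurve AlgebraicCurve Fermat.Agent.S24 Fermat.Agent.GAL

/-- The residue field of the Gauss valuation on `FN M`, as a subfield of `k((q))`. -/
def EAf (A : ValuationSubring Qb) (M : ℕ) :
    IntermediateField (kA A) (LaurentSeries (kA A)) :=
  S28.Export.resField A (modularFunctionFieldBar M)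

/-- The residue field of the Gauss valuation on `FN M`, as a type. -/
abbrev EA (A : ValuationSubring Qb) (M : ℕ) : Type := ↥(EAf A M)

set_option synthInstance.maxHeartbeats 400000 in
instance algebraEA (A : ValuationSubring Qb) (M : ℕ) : Algebra (kA A) (EA A M) := inferInstance

/-- the inclusion `EA A M → k((q))` -/
def iotaE (A : ValuationSubring Qb) (M : ℕ) : EA A M →ₐ[kA A] LaurentSeries (kA A) :=
  (EAf A M).val

@[simp] theorem iotaE_apply (A : ValuationSubring Qb) (M : ℕ) (x : EA A M) :
    iotaE A M x = (x : LaurentSeries (kA A)) := rfl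

/-- `L(m ∞)` -/
abbrev Linf (M : ℕ) (m : ℕ) : Submodule Kbar (FN M) :=
  riemannRochSpace (Finsupp.single (S17.W.cusp M) (m : ℤ))

/-- the reduction of an integral element of `FN M`, as an element of `EA A M` -/
def redE (A : ValuationSubring Qb) {M : ℕ} (Y : LaurentSeries A)
    (hY : E.incl A Y ∈ modularFunctionFieldBar M) : EA A M :=
  ⟨E.red A Y, ⟨E.incl A Y, hY, S28.Export.red_iota Y⟩⟩

@[simp] theorem coe_redE (A : ValuationSubring Qb) {M : ℕ} (Y : LaurentSeries A)
    (hY : E.incl A Y ∈ modularFunctionFieldBar M) :
    ((redE A Y hY : EA A M) : LaurentSeries (kA A)) = E.red A Y := rfl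

end Fermat.Agent.S44.F

end
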