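/-
S44 / F / Dual: the five nodes from which `FDualA` follows (helper136; blocks of helper100).
Assembly: `Dual/AsmA.lean` (`fDualA_of`).

  DLin  (Mathlib only)   : duality for subspaces of `K^m` over a valuation ring
  DDim  (RR + I1 + g=g') : a vector orthogonal to the principal parts of `L(m ∞)` is the beginning of
                           the `q`-expansion of a cusp form
  DInt                   : an element of `L(m ∞)` with integral principal part is integral up to a constant
  DRes  (RES')           : the constant term of `h̄ · dl ū` vanishes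
  DOrd0                  : the constant term of `dl ū` vanishes
-/
import Fermat.Agent.S44.F.ADefs
import Fermat.Agent.S44.F.Pow
import Fermat.Agent.S44.F.Dual.Defs
import Fermat.Agent.S49.Basic

set_option autoImplicit false

noncomputable section

namespace Fermat.Agent.S44.F

open ModularCurve AlgebraicCurve Fermat.Agent.S24 Fermat.Agent.GAL
open CongruenceSubgroup ModularFormClass

/-- the principal part (coefficients of `q^(-1), .., q^(-m)`) -/
def pp (M m : ℕ) (b : FN M) : Fin m → Kbar :=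
  fun i => (b : LaurentSeries Kbar).coeff (-((i : ℤ) + 1))

/-- **DLin** (Mathlib only). -/
def DLin : Prop :=
  ∀ (K : Type) [Field K] (O : ValuationSubring K) (m : ℕ) (P : Submodule K (Fin m → K))
    (φ : Fin m → IsLocalRing.ResidueField O),
    (∀ x : Fin m → O, (fun i => (x i : K)) ∈ P → ∑ i, IsLocalRing.residue O (x i) * φ i = 0) →
      ∃ y : Fin m → O, (∀ x ∈ P, ∑ i, x i * (y i : K) = 0) ∧ ∀ i, IsLocalRing.residue O (y i) = φ i

/-- **DDim**. -/
def DDim : Prop :=
  ∀ (M : ℕ) [NeZero M], ∃ D0 : ℕ, ∀ m : ℕ, D0 ≤ m → ∀ y : Fin m → Kbar,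
    (∀ b ∈ Linf M m, ∑ i, pp M m b i * y i = 0) →
      ∃ f : CuspForm (Gamma0 M) 2, ∀ i : Fin m, qCoeff f ((i : ℕ) + 1) = iota (y i)

/-- **DInt**. -/
def DInt : Prop :=
  ∀ (p M : ℕ) [NeZero M], p.Prime → ¬ p ∣ M → ∀ A : ValuationSubring Qb, A.LiesOverPrime p →
    ∀ (m : ℕ) (b : FN M), b ∈ Linf M m → (∀ i : Fin m, pp M m b i ∈ A) →
      ∃ (c : Kbar) (H : LaurentSeries A),
        E.incl A H = ((b - algebraMap Kbar (FN M) c : FN M) : LaurentSeries Kbar)

/-- **DRes**. -/
def DRes : Prop :=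
  ∀ (p M : ℕ) [NeZero M], p.Prime → ¬ p ∣ M → ∀ A : ValuationSubring Qb, A.LiesOverPrime p →
    ∀ ubar : Fk A M, ubar ≠ 0 → (∀ v : Place (kA A) (Fk A M), (p : ℤ) ∣ v.ord ubar) →
      ∀ (m : ℕ) (H : LaurentSeries A) (hH : E.incl A H ∈ modularFunctionFieldBar M),
        (⟨E.incl A H, hH⟩ : FN M) ∈ Linf M m →
          (E.red A H * dl (ubar : LaurentSeries (kA A))).coeff 0 = 0

/-- **DOrd0**. -/
def DOrd0 : Prop :=
  ∀ (p M : ℕ) [NeZero M], p.Prime → ¬ p ∣ M → ∀ A : ValuationSubring Qb, A.LiesOverPrime p →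
    ∀ ubar : Fk A M, ubar ≠ 0 → (∀ v : Place (kA A) (Fk A M), (p : ℤ) ∣ v.ord ubar) →
      (dl (ubar : LaurentSeries (kA A))).coeff 0 = 0

end Fermat.Agent.S44.F

end
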