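/-
S44 / F / Dual: assembly `FDualA` from the five nodes of `Dual/NodesA.lean`.
-/
import Fermat.Agent.S44.F.Dual.NodesA

set_option autoImplicit false

noncomputable section

namespace Fermat.Agent.S44.F

open ModularCurve AlgebraicCurve Fermat.Agent.S24 Fermat.Agent.GAL
open CongruenceSubgroup ModularFormClass

/-- the constant term of a product (Laurent series with a pole of order `≤ m`) × (power series) -/
theorem coeff_zero_mul_coe {k : Type*} [Field k] (f : LaurentSeries k) (m : ℕ)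
    (hf : ∀ n : ℤ, n < -(m : ℤ) → f.coeff n = 0) (ψ : PowerSeries k) :
    (f * (ψ : LaurentSeries k)).coeff 0 =
      ∑ n ∈ Finset.range (m + 1), f.coeff (-(n : ℤ)) * PowerSeries.coeff n ψ := by
  let F : PowerSeries k := PowerSeries.mk fun i => f.coeff ((i : ℤ) - m)
  have hF : f = HahnSeries.single (-(m : ℤ)) (1 : k) * (F : LaurentSeries k) := by
    ext n
    rw [HahnSeries.coeff_single_mul, one_mul, PowerSeries.coeff_coe]
    split_ifs with hn
    · exact hf n (by omega)
    · rw [PowerSeries.coeff_mk]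
      congr 1
      omega
  have h1 : f * (ψ : LaurentSeries k) =
      HahnSeries.single (-(m : ℤ)) (1 : k) * ((ψ * F : PowerSeries k) : LaurentSeries k) := by
    rw [PowerSeries.coe_mul]
    conv_lhs => rw [hF]
    ring
  rw [h1, HahnSeries.coeff_single_mul, one_mul, zero_sub, neg_neg,
    LaurentSeries.coeff_coe_powerSeries, PowerSeries.coeff_mul,
    Finset.Nat.sum_antidiagonal_eq_sum_range_succ_mk]
  refine Finset.sum_congr rfl fun n hn => ?_
  have hn' : n ≤ m := Nat.lt_succ_iff.1 (Finset.mem_range.1 hn)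
  rw [PowerSeries.coeff_mk, mul_comm]
  congr 2
  push_cast [Nat.cast_sub hn']
  ring

/-! ### helper lemmas for the assembly -/

theorem AsmA_coeff_algebraMap (M : ℕ) (c : Kbar) (n : ℤ) (hn : n ≠ 0) :
    ((algebraMap Kbar (FN M) c : FN M) : LaurentSeries Kbar).coeff n = 0 := by
  show (algebraMap Kbar (LaurentSeries Kbar) c).coeff n = 0
  rw [algebraMap_laurentSeries_eq_single, HahnSeries.coeff_single_of_ne hn]

theorem AsmA_coeff_smul (M : ℕ) (c : Kbar) (b : FN M) (n : ℤ) :
    ((c • b : FN M) : LaurentSeries Kbar).coeff n = c * (b : LaurentSeries Kbar).coeff n := by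
  rw [Algebra.smul_def]
  show (algebraMap Kbar (LaurentSeries Kbar) c * (b : LaurentSeries Kbar)).coeff n = _
  rw [algebraMap_laurentSeries_eq_single, HahnSeries.coeff_single_mul, sub_zero]

/-- the principal part, as a linear map -/
def AsmA_ppLin (M m : ℕ) : FN M →ₗ[Kbar] (Fin m → Kbar) where
  toFun := pp M m
  map_add' a b := by
    ext i
    rfl
  map_smul' c b := by
    ext i
    exact AsmA_coeff_smul M c b _

theorem AsmA_algebraMap_mem_Linf (M m : ℕ) (c : Kbar) : algebraMap Kbar (FN M) c ∈ Linf M m := by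
  intro v
  refine (v.adicValuation_algebraMap_le_one c).trans ?_
  rw [← WithZero.exp_zero, WithZero.exp_le_exp]
  classical
  rw [Finsupp.single_apply]
  split_ifs
  · exact Int.natCast_nonneg m
  · exact le_rfl

theorem AsmA_coeff_eq_zero {M m : ℕ} {b : FN M} (hb : b ∈ Linf M m) {n : ℤ} (hn : n < -(m : ℤ)) :
    (b : LaurentSeries Kbar).coeff n = 0 := by
  rcases (mem_riemannRochSpace_iff.1 hb) (S17.W.cusp M) with h0 | h0
  · rw [h0]
    rfl
  · by_cases hb0 : b = 0
    · rw [hb0]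
      rfl
    · rw [Finsupp.single_eq_same, S17.W.ord_cusp M b hb0] at h0
      exact HahnSeries.coeff_eq_zero_of_lt_order (lt_of_lt_of_le hn h0)

theorem fDualA_of (hLin : DLin) (hDim : DDim) (hInt : DInt) (hRes : DRes) (hOrd : DOrd0) :
    FDualA := by
  intro p M' _ hp _ hsq A hA ubar hu0 hdiv m
  have hpM : ¬ p ∣ M' := by
    intro h
    have h1 := hsq p (mul_dvd_mul h dvd_rfl)
    exact hp.one_lt.ne' (Nat.isUnit_iff.1 h1)
  obtain ⟨D0, hD0⟩ := hDim M'
  obtain ⟨m', hm', hmD⟩ : ∃ m' : ℕ, m ≤ m' ∧ D0 ≤ m' := ⟨max m D0, le_max_left _ _, le_max_right _ _⟩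
  have hu0' : (ubar : LaurentSeries (kA A)) ≠ 0 := fun h => hu0 (Subtype.ext h)
  obtain ⟨ψ, hψ⟩ := fPow (kA A) _ hu0'
  have hψn : ∀ n : ℕ, (dl (ubar : LaurentSeries (kA A))).coeff (n : ℤ) = PowerSeries.coeff n ψ := by
    intro n
    rw [← hψ, LaurentSeries.coeff_coe_powerSeries]
  have hψ0 : PowerSeries.coeff 0 ψ = 0 := by
    have h1 := hOrd p M' hp hpM A hA ubar hu0 hdiv
    have h2 := hψn 0
    rw [Nat.cast_zero, h1] at h2
    exact h2.symm
  obtain ⟨y, hy1, hy2⟩ := hLin Kbar A m' ((Linf M' m').map (AsmA_ppLin M' m'))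
    (fun i => PowerSeries.coeff ((i : ℕ) + 1) ψ) (by
      intro x hx
      obtain ⟨b, hb, hbx⟩ := hx
      have hbx' : ∀ i : Fin m', pp M' m' b i = (x i : Kbar) := fun i => congrFun hbx i
      obtain ⟨c, H, hH⟩ := hInt p M' hp hpM A hA m' b hb (fun i => by rw [hbx' i]; exact (x i).2)
      have hb' : b - algebraMap Kbar (FN M') c ∈ Linf M' m' :=
        Submodule.sub_mem _ hb (AsmA_algebraMap_mem_Linf M' m' c)
      have hHmem : E.incl A H ∈ modularFunctionFieldBar M' := by
        rw [hH]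
        exact (b - algebraMap Kbar (FN M') c).2
      have hHeq : (⟨E.incl A H, hHmem⟩ : FN M') = b - algebraMap Kbar (FN M') c := Subtype.ext hH
      have h1 := hRes p M' hp hpM A hA ubar hu0 hdiv m' H hHmem (by rw [hHeq]; exact hb')
      have hHc : ∀ n : ℤ, (H.coeff n : Kbar) =
          ((b - algebraMap Kbar (FN M') c : FN M') : LaurentSeries Kbar).coeff n := by
        intro n
        rw [← hH]
        rfl
      have hlow : ∀ n : ℤ, n < -(m' : ℤ) → (E.red A H).coeff n = 0 := by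
        intro n hn
        have h2 : H.coeff n = 0 := Subtype.ext (by rw [hHc n, AsmA_coeff_eq_zero hb' hn]; rfl)
        rw [E.coeff_red, h2, map_zero]
      rw [← hψ, coeff_zero_mul_coe _ m' hlow ψ, Finset.sum_range_succ', hψ0, mul_zero, add_zero,
        ← Fin.sum_univ_eq_sum_range (fun n : ℕ =>
          (E.red A H).coeff (-((n + 1 : ℕ) : ℤ)) * PowerSeries.coeff (n + 1) ψ) m'] at h1
      rw [← h1]
      refine Finset.sum_congr rfl fun i _ => ?_
      congr 1
      rw [E.coeff_red]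
      congr 1
      apply Subtype.ext
      rw [hHc, ← hbx' i]
      show (b : LaurentSeries Kbar).coeff (-((i : ℤ) + 1)) =
        (b : LaurentSeries Kbar).coeff (-(((i : ℕ) + 1 : ℕ) : ℤ)) -
          ((algebraMap Kbar (FN M') c : FN M') : LaurentSeries Kbar).coeff
            (-(((i : ℕ) + 1 : ℕ) : ℤ))
      rw [AsmA_coeff_algebraMap M' c _ (by omega), sub_zero]
      push_cast
      rfl)
  obtain ⟨f, hf⟩ := hD0 m' hmD (fun i => (y i : Kbar))
    (fun b hb => hy1 (pp M' m' b) ⟨b, hb, rfl⟩)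
  obtain ⟨Y, hY0, hYs⟩ : ∃ Y : ℕ → A, Y 0 = 0 ∧ ∀ i : Fin m', Y ((i : ℕ) + 1) = y i := by
    refine ⟨fun n => if h : 0 < n ∧ n - 1 < m' then y ⟨n - 1, h.2⟩ else 0, ?_, fun i => ?_⟩
    · exact dif_neg (by simp)
    · have h : 0 < (i : ℕ) + 1 ∧ (i : ℕ) + 1 - 1 < m' := ⟨Nat.succ_pos _, by simp⟩
      exact dif_pos h
  refine ⟨Y, ⟨f, ?_⟩, ?_⟩
  · intro n hn
    rcases Nat.eq_zero_or_pos n with rfl | hpos
    · rw [hY0]
      simpa using S49.qCoeff_zero_index f
    · obtain ⟨k, rfl⟩ : ∃ k, n = k + 1 := ⟨n - 1, by omega⟩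
      have hk : k < m' := by omega
      rw [hYs ⟨k, hk⟩]
      exact hf ⟨k, hk⟩
  · intro n hn
    rcases Nat.eq_zero_or_pos n with rfl | hpos
    · rw [hY0, map_zero, hψn, hψ0]
    · obtain ⟨k, rfl⟩ : ∃ k, n = k + 1 := ⟨n - 1, by omega⟩
      have hk : k < m' := by omega
      rw [hYs ⟨k, hk⟩, hy2 ⟨k, hk⟩, hψn]

end Fermat.Agent.S44.F

end
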