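/-
S44 / F / Dual (helper100).  The `q`-adic place of a subfield `ι : E → k((q))` containing an element of
order one.  (Generic version of `S17/W/Cusp.lean`.)
-/
import Fermat.Agent.S24.CL.PlaceOfVal
import Fermat.Prelude.Def_ModularCurve_LaurentCoeff

set_option autoImplicit false

noncomputable section

namespace Fermat.Agent.S44.F

open AlgebraicCurve Fermat.Agent.S24
open scoped WithZero

variable {k E : Type*} [Field k] [Field E] [Algebra k E] (ι : E →ₐ[k] LaurentSeries k)

/-- The `q`-adic valuation on `E`. -/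
def qVal : Valuation E ℤᵐ⁰ :=
  ((PowerSeries.idealX k).valuation (LaurentSeries k)).comap ι.toRingHom

theorem qVal_le_iff (f : E) (D : ℤ) :
    qVal ι f ≤ WithZero.exp (-D) ↔ ∀ n : ℤ, n < D → (ι f).coeff n = 0 :=
  LaurentSeries.valuation_le_iff_coeff_lt_eq_zero k (D := D) (f := ι f)

theorem qVal_eq_exp_neg_order (f : E) (hf : f ≠ 0) :
    qVal ι f = WithZero.exp (-(ι f).order) := by
  have hf' : ι f ≠ 0 := fun h => hf (ι.toRingHom.injective (by simpa using h))
  have hv : qVal ι f ≠ 0 := (Valuation.ne_zero_iff _).mpr hf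
  have h1 : qVal ι f ≤ WithZero.exp (-(ι f).order) :=
    (qVal_le_iff ι f _).mpr fun n hn => HahnSeries.coeff_eq_zero_of_lt_order hn
  have h2 : ¬ qVal ι f ≤ WithZero.exp (-((ι f).order + 1)) := by
    intro h
    exact hf' (HahnSeries.coeff_order_eq_zero.mp ((qVal_le_iff ι f _).mp h _ (by omega)))
  rw [← WithZero.exp_log hv] at h1 h2 ⊢
  rw [WithZero.exp_le_exp] at h1 h2
  congr 1
  omega

theorem qVal_algebraMap (a : k) (ha : a ≠ 0) : qVal ι (algebraMap k E a) = 1 := by
  have h0 : algebraMap k E a ≠ 0 := by simpa using ha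
  rw [qVal_eq_exp_neg_order ι _ h0, AlgHom.commutes]
  have : algebraMap k (LaurentSeries k) a = HahnSeries.single 0 a :=
    ModularCurve.algebraMap_laurentSeries_eq_single k a
  rw [this, HahnSeries.order_single ha]
  simp

theorem exists_qVal_lt_one (y : E) (hy : (ι y).order = 1) : ∃ f : E, f ≠ 0 ∧ qVal ι f < 1 := by
  have hy0 : y ≠ 0 := by
    rintro rfl
    simp at hy
  refine ⟨y, hy0, ?_⟩
  rw [qVal_eq_exp_neg_order ι _ hy0, hy, ← WithZero.exp_zero, WithZero.exp_lt_exp]
  omega

/-- The `q`-adic place. -/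
def qPlace (y : E) (hy : (ι y).order = 1) : Place k E :=
  CL.placeOfValuation (qVal ι) (qVal_algebraMap ι) (exists_qVal_lt_one ι y hy)

theorem ord_qPlace (y : E) (hy : (ι y).order = 1) (f : E) (hf : f ≠ 0) :
    (qPlace ι y hy).ord f = (ι f).order := by
  obtain ⟨m, hm, h⟩ := CL.exists_mul_ord_placeOfValuation (qVal ι) (qVal_algebraMap ι)
    (exists_qVal_lt_one ι y hy)
  have hy0 : y ≠ 0 := by
    rintro rfl
    simp at hy
  have key : ∀ g : E, g ≠ 0 → (ι g).order = (m : ℤ) * (qPlace ι y hy).ord g := by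
    intro g hg
    have h1 := h g hg
    rw [qVal_eq_exp_neg_order ι g hg, WithZero.exp_inj] at h1
    have : (CL.placeOfValuation (qVal ι) (qVal_algebraMap ι)
      (exists_qVal_lt_one ι y hy)).ord g = (qPlace ι y hy).ord g := rfl
    rw [this] at h1
    omega
  have h1 := key y hy0
  rw [hy] at h1
  have hm1 : (m : ℤ) = 1 := by
    have hdvd : (m : ℤ) ∣ 1 := ⟨_, h1⟩
    have := Int.eq_one_or_neg_one_of_mul_eq_one' h1.symm
    rcases this with h | h <;> omega
  rw [key f hf, hm1, one_mul]

end Fermat.Agent.S44.F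

end
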