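/-
S44 / F / Dual (sub-architect helper100).  NODE FFE: `EA A M` (residue field of the Gauss valuation of `FN M`,
`p ∤ M`) is a function field in one variable over `k = kA A`, separable over `k(j̄)`.
-/
import Fermat.Agent.S44.F.Dual.Defs
import Fermat.Agent.S44.F.Dual.QPlace
import Fermat.Agent.Lib.RR.CharP
import Fermat.Agent.Lib.InertiaField.Residue

set_option autoImplicit false

noncomputable section

namespace Fermat.Agent.S44.F

open ModularCurve AlgebraicCurve IntermediateField Fermat.Agent.S24 Fermat.Agent.GAL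

/-! ### Generic field theory: from subfields of `Ω` to subfields of the type `↥L` -/

section Generic

variable {k Ω : Type*} [Field k] [Field Ω] [Algebra k Ω]

theorem FFE_mem_adjoin_iff (L : IntermediateField k Ω) (t : L) (x : L) :
    x ∈ k⟮t⟯ ↔ (x : Ω) ∈ k⟮(t : Ω)⟯ := by
  rw [← IntermediateField.lift_adjoin_simple, IntermediateField.mem_lift]

theorem FFE_adjoin_le (L : IntermediateField k Ω) (t : L) : k⟮(t : Ω)⟯ ≤ L := by
  rw [IntermediateField.adjoin_le_iff]
  rintro x rfl
  exact t.2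

/-- `k(t) ⊆ Ω` and `k(t) ⊆ L` are the same field -/
def FFE_e1 (L : IntermediateField k Ω) (t : L) : k⟮(t : Ω)⟯ ≃+* k⟮t⟯ where
  toFun x := ⟨⟨x.1, FFE_adjoin_le L t x.2⟩, (FFE_mem_adjoin_iff L t _).2 x.2⟩
  invFun y := ⟨y.1.1, (FFE_mem_adjoin_iff L t _).1 y.2⟩
  left_inv _ := rfl
  right_inv _ := rfl
  map_mul' _ _ := rfl
  map_add' _ _ := rfl

/-- `L`, seen as an extension of `k(t) ⊆ Ω`, and the type `L` -/
def FFE_e2 (L : IntermediateField k Ω) (t : L) :
    IntermediateField.extendScalars (FFE_adjoin_le L t) ≃+* L where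
  toFun x := ⟨x.1, (IntermediateField.mem_extendScalars _).1 x.2⟩
  invFun y := ⟨y.1, (IntermediateField.mem_extendScalars _).2 y.2⟩
  left_inv _ := rfl
  right_inv _ := rfl
  map_mul' _ _ := rfl
  map_add' _ _ := rfl

theorem FFE_comp (L : IntermediateField k Ω) (t : L) :
    (algebraMap k⟮t⟯ L).comp (FFE_e1 L t : k⟮(t : Ω)⟯ →+* k⟮t⟯) =
      (FFE_e2 L t : IntermediateField.extendScalars (FFE_adjoin_le L t) →+* L).comp
        (algebraMap k⟮(t : Ω)⟯ (IntermediateField.extendScalars (FFE_adjoin_le L t))) :=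
  RingHom.ext fun _ => rfl

theorem FFE_finite (L : IntermediateField k Ω) (t : L)
    [FiniteDimensional k⟮(t : Ω)⟯ (IntermediateField.extendScalars (FFE_adjoin_le L t))] :
    FiniteDimensional k⟮t⟯ L :=
  Module.Finite.of_equiv_equiv (FFE_e1 L t) (FFE_e2 L t) (FFE_comp L t)

theorem FFE_separable (L : IntermediateField k Ω) (t : L)
    [Algebra.IsSeparable k⟮(t : Ω)⟯ (IntermediateField.extendScalars (FFE_adjoin_le L t))] :
    Algebra.IsSeparable k⟮t⟯ L :=
  Algebra.IsSeparable.of_equiv_equiv (FFE_e1 L t) (FFE_e2 L t) (FFE_comp L t)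

theorem FFE_finite_of_eq (L L' : IntermediateField k Ω) (t : L) (hL : L = L')
    (h : k⟮(t : Ω)⟯ ≤ L')
    (hfin : FiniteDimensional k⟮(t : Ω)⟯ (IntermediateField.extendScalars h)) :
    FiniteDimensional k⟮t⟯ L := by
  subst hL
  exact FFE_finite L t

theorem FFE_separable_of_eq (L L' : IntermediateField k Ω) (t : L) (hL : L = L')
    (h : k⟮(t : Ω)⟯ ≤ L')
    (hsep : Algebra.IsSeparable k⟮(t : Ω)⟯ (IntermediateField.extendScalars h)) :
    Algebra.IsSeparable k⟮t⟯ L := by
  subst hL
  exact FFE_separable L t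

end Generic

instance isAlgClosed_kA (A : ValuationSubring Qb) : IsAlgClosed (kA A) :=
  Lib.InertiaField.isAlgClosed_residueField A

/-- the generators of `F_M` over `ℚ̄` -/
theorem FFE_mem_bar (M d : ℕ) [NeZero d] (h : d ∣ M) :
    qExpand Kbar d (jqModC Kbar) ∈ modularFunctionFieldBar M := by
  have h1 : qExpand ℚ d (jqModC ℚ) ∈ modularFunctionFieldFull M := jqModCd_mem_full ℚ M h
  have h2 := coeffEmb_mem_laurentBaseChange Kbar h1
  have h3 : coeffEmb Kbar (qExpand ℚ d (jqModC ℚ)) = qExpand Kbar d (jqModC Kbar) := by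
    rw [coeffEmb, coeffMap_qExpand, coeffMap_jqModC]
  rw [h3] at h2
  exact h2

theorem FFE_red_qExpand (A : ValuationSubring Qb) (d : ℕ) [NeZero d] :
    S28.Export.Red A (qExpand Kbar d (jqModC Kbar)) (qExpand (kA A) d (jqModC (kA A))) := by
  have h := S28.Export.red_iota (O := A) (qExpand A d (jqModC A))
  rwa [coeffMap_qExpand, coeffMap_qExpand, coeffMap_jqModC, coeffMap_jqModC] at h

theorem jqModC_mem_EAf (A : ValuationSubring Qb) (M : ℕ) : jqModC (kA A) ∈ EAf A M := by
  have h1 := FFE_mem_bar M 1 (one_dvd M)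
  have h2 := FFE_red_qExpand A 1
  rw [qExpand_one_apply] at h1
  rw [qExpand_one_apply, qExpand_one_apply] at h2
  exact ⟨_, h1, h2⟩

/-- `j̄ ∈ EA A M` -/
def jE (A : ValuationSubring Qb) (M : ℕ) : EA A M := ⟨jqModC (kA A), jqModC_mem_EAf A M⟩

theorem order_jE (A : ValuationSubring Qb) (M : ℕ) :
    (iotaE A M (jE A M)).order = -1 := by
  refine S24.B.order_eq_of_coeff (f := jqModC (kA A)) ?_ fun n hn => coeff_jqModC_of_lt _ hn
  rw [coeff_jqModC_neg_one]
  exact one_ne_zero

theorem order_jE_inv (A : ValuationSubring Qb) (M : ℕ) :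
    (iotaE A M (jE A M)⁻¹).order = 1 := by
  have h0 : iotaE A M (jE A M) ≠ 0 := by
    intro h
    have := order_jE A M
    rw [h, HahnSeries.order_zero] at this
    omega
  have h1 : iotaE A M (jE A M) * iotaE A M (jE A M)⁻¹ = 1 := by
    rw [map_inv₀, mul_inv_cancel₀ h0]
  have h2 : iotaE A M (jE A M)⁻¹ ≠ 0 := right_ne_zero_of_mul_eq_one h1
  have h3 := HahnSeries.order_mul h0 h2
  rw [h1, HahnSeries.order_one, order_jE] at h3
  omega

/-- an element of `k((q))` with a pole is transcendental over `k` -/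
theorem transcendental_of_order_neg {k E : Type*} [Field k] [Field E] [Algebra k E]
    (ι : E →ₐ[k] LaurentSeries k) (x : E) (hx : (ι x).order < 0) : Transcendental k x := by
  intro halg
  have hx0 : x ≠ 0 := by
    rintro rfl
    simp at hx
  have hint : IsIntegral k x := halg.isIntegral
  obtain ⟨p, hp, hpx⟩ := hint
  let φ : k →+* (qVal ι).integer := (algebraMap k E).codRestrict (qVal ι).integer fun a => by
    rw [Valuation.mem_integer_iff]
    by_cases ha : a = 0
    · simp [ha]
    · exact (qVal_algebraMap ι a ha).le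
  have hint' : IsIntegral (qVal ι).integer x := by
    refine ⟨p.map φ, hp.map φ, ?_⟩
    rw [Polynomial.eval₂_map]
    exact hpx
  have hmem := (Valuation.integer.integers (qVal ι)).mem_of_integral hint'
  rw [Valuation.mem_integer_iff, qVal_eq_exp_neg_order ι x hx0, ← WithZero.exp_zero,
    WithZero.exp_le_exp] at hmem
  omega

/-- the `q`-adic place of `EA A M` -/
def ooE (A : ValuationSubring Qb) (M : ℕ) : Place (kA A) (EA A M) :=
  qPlace (iotaE A M) (jE A M)⁻¹ (order_jE_inv A M)

theorem ord_ooE (A : ValuationSubring Qb) (M : ℕ) (f : EA A M) (hf : f ≠ 0) :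
    (ooE A M).ord f = (f : LaurentSeries (kA A)).order :=
  ord_qPlace (iotaE A M) _ _ f hf

variable (p M : ℕ) [NeZero M] (hp : p.Prime) (hpM : ¬ p ∣ M) (A : ValuationSubring Qb)
  (hA : A.LiesOverPrime p)

include hp hpM hA

theorem FFE_exists_EAf_eq : ∃ (_ : Fact p.Prime) (D : S28.UData M p),
    EAf A M = S28.Export.bigk A D hA := by
  have : Fact p.Prime := ⟨hp⟩
  obtain ⟨D, -, hD⟩ := S28.Export.exists_good_UData M p hpM
  refine ⟨inferInstance, D, ?_⟩
  rw [EAf, S28.Export.bar_eq_full, ← S28.Export.bigK_eq_full A D hA hD, S28.Export.resField_bigK]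

theorem finiteDimensional_EA : FiniteDimensional (kA A)⟮jE A M⟯ (EA A M) := by
  obtain ⟨_, D, hD⟩ := FFE_exists_EAf_eq p M hp hpM A hA
  have hfin : FiniteDimensional (S28.Export.jK (kA A))
      (IntermediateField.extendScalars
        (S28.Export.adjoin_simple_le_pair (jqModC (kA A)) (S28.Export.uk A D hA))) := by
    rw [S28.Export.extendScalars_eq]
    exact IntermediateField.adjoin.finiteDimensional
      (S28.Export.isIntegral_u _ _ (S28.Export.chik A D hA) (S18.Vert.chiS_monic D _)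
        (S28.Export.chik_eval A D hA))
  exact FFE_finite_of_eq (EAf A M) (S28.Export.bigk A D hA) (jE A M) hD
    (S28.Export.jK_le_bigk A D hA) hfin

theorem isSeparable_EA : Algebra.IsSeparable (kA A)⟮jE A M⟯ (EA A M) := by
  obtain ⟨_, D, hD⟩ := FFE_exists_EAf_eq p M hp hpM A hA
  exact FFE_separable_of_eq (EAf A M) (S28.Export.bigk A D hA) (jE A M) hD
    (S28.Export.jK_le_bigk A D hA) (S28.Export.isSeparable_bigk A D hA)

theorem isFF1_EA : FF.IsFF1 (kA A) (EA A M) := by
  have := finiteDimensional_EA p M hp hpM A hA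
  exact FF.IsFF1.of_exists (jE A M)

theorem hasFundId_EA : Lib.RR.HasFundId (kA A) (EA A M) := by
  have := isFF1_EA p M hp hpM A hA
  have := isSeparable_EA p M hp hpM A hA
  exact Lib.RR.hasFundId_of_isSeparable (jE A M)
    (transcendental_of_order_neg (iotaE A M) _ (by rw [order_jE]; norm_num))

omit hp hpM hA [NeZero M] in
/-- `Fk A M ⊆ EA A M` -/
theorem Fk_le_EAf : modularFunctionFieldFullC (kA A) M ≤ EAf A M := by
  rw [modularFunctionFieldFullC, IntermediateField.adjoin_le_iff]
  rintro x ⟨d, hd, hdM, rfl⟩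
  exact ⟨_, FFE_mem_bar M d hdM, FFE_red_qExpand A d⟩

end Fermat.Agent.S44.F

end
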