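/-
S44 / F / Dual (sub-architect helper100).  NODE FLE ("f ≤ n"): the residue degree of the Gauss valuation is at most
the degree.  `Y ∈ A((q))` with `y = incl Y ∈ F = FN M` and `ȳ = red Y` non constant (it has a pole). Then
`[EA : k(ȳ)] ≤ [F : K(y)]`.

PROOF.  A family of `EA` which is independent over `k(ȳ)` lifts to a family of `F` which is independent over
`K(y)`: a nontrivial relation over `K(y)`, divided by its coefficient of largest Gauss norm, reduces to a
nontrivial relation over `k(ȳ)` (`fle_exists_red_relation`).  Abstract form: `fle_finrank_resField_le`.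
(helper245, task 2426)
-/
import Fermat.Agent.S44.F.Dual.Defs
import Fermat.Agent.S24.Export.Ramification

set_option autoImplicit false

noncomputable section

namespace Fermat.Agent.S44.F

open ModularCurve AlgebraicCurve IntermediateField Fermat.Agent.S24 Fermat.Agent.GAL

section Abstract

open Polynomial Fermat.Agent.S28.Export

/-- a Laurent series over a field with a pole is transcendental over the field. -/
theorem fle_transcendental_of_order_neg {k : Type*} [Field k] (y : LaurentSeries k)
    (hy : y.order < 0) : Transcendental k y := by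
  intro halg
  have h1 : IsIntegral k y := halg.isIntegral
  have : @IsScalarTower k (PowerSeries k) (LaurentSeries k) Algebra.toSMul Algebra.toSMul
      Algebra.toSMul := by
    apply IsScalarTower.of_algebraMap_eq
    intro c
    rw [algebraMap_laurentSeries_eq_single]
    change _ = ((PowerSeries.C c : PowerSeries k) : LaurentSeries k)
    rw [PowerSeries.coe_C]
    rfl
  have h2 : IsIntegral (PowerSeries k) y := h1.tower_top
  obtain ⟨f, hf⟩ := (IsIntegrallyClosed.isIntegral_iff (R := PowerSeries k)).1 h2
  have hy0 : y ≠ 0 := by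
    rintro rfl
    simp at hy
  apply fun h => hy0 (HahnSeries.coeff_order_eq_zero.1 h)
  have h4 : y = ((f : PowerSeries k) : LaurentSeries k) := hf.symm
  have h5 : y.coeff y.order = ((f : PowerSeries k) : LaurentSeries k).coeff y.order := by
    rw [← h4]
  rw [h5, PowerSeries.coeff_coe, if_pos hy]

theorem fle_evalT_injective {k : Type*} [Field k] (y : LaurentSeries k)
    (hy : y.order < 0) : Function.Injective (evalT y) := by
  have h := (transcendental_iff_injective).1 (fle_transcendental_of_order_neg y hy)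
  intro P Q hPQ
  apply h
  rwa [← evalT_eq_aeval, ← evalT_eq_aeval]

variable {K : Type*} [Field K] {O : ValuationSubring K}

/-- a nontrivial relation over `K(Y)` reduces to a nontrivial relation over `k(Ȳ)`. -/
theorem fle_exists_red_relation {ι : Type*} [Fintype ι] (Y : LaurentSeries O)
    (ht : Function.Injective (evalT (rho O Y)))
    (c f : ι → LaurentSeries K) (e : ι → LaurentSeries (IsLocalRing.ResidueField O))
    (hc : ∀ i, c i ∈ IntermediateField.adjoin K {iota O Y})
    (hfe : ∀ i, Red O (f i) (e i))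
    (hsum : ∑ i, c i * f i = 0) (hne : ∃ i, c i ≠ 0) :
    ∃ cb : ι → LaurentSeries (IsLocalRing.ResidueField O),
      (∀ i, cb i ∈ IntermediateField.adjoin (IsLocalRing.ResidueField O) {rho O Y}) ∧
      (∃ i, cb i ≠ 0) ∧ ∑ i, cb i * e i = 0 := by
  classical
  have hE := isGood_adjoin_simple Y ht
  obtain ⟨i₁, h1⟩ := hne
  obtain ⟨i₀, -, h0, hall⟩ := exists_max_val (gaussRing O _ hE) Finset.univ
    (fun i => (⟨c i, hc i⟩ : IntermediateField.adjoin K {iota O Y}))
    ⟨i₁, Finset.mem_univ _, fun h => h1 (congrArg Subtype.val h)⟩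
  have h0' : c i₀ ≠ 0 := fun h => h0 (Subtype.ext h)
  have hred : ∀ i, ∃ g, Red O (c i / c i₀) g := fun i => hall i (Finset.mem_univ _)
  choose cb hcb using hred
  refine ⟨cb, fun i => ?_, ⟨i₀, ?_⟩, ?_⟩
  · obtain ⟨r, s, hs, -, h2⟩ := exists_frac_of_red Y ht (div_mem (hc i) (hc i₀)) (hcb i)
    rw [IntermediateField.mem_adjoin_simple_iff]
    refine ⟨r.map (IsLocalRing.residue O), s.map (IsLocalRing.residue O), ?_⟩
    rw [← evalT_eq_aeval, ← evalT_eq_aeval, eq_div_iff (evalT_rho_ne_zero Y ht hs), h2]
  · have h3 := hcb i₀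
    rw [div_self h0'] at h3
    rw [h3.unique red_one]
    exact one_ne_zero
  · have h4 : Red O (∑ i, (c i / c i₀) * f i) (∑ i, cb i * e i) :=
      Red.sum _ fun i _ => (hcb i).mul (hfe i)
    have h5 : ∑ i, (c i / c i₀) * f i = 0 := by
      have : ∑ i, (c i / c i₀) * f i = (c i₀)⁻¹ * ∑ i, c i * f i := by
        rw [Finset.mul_sum]
        refine Finset.sum_congr rfl fun i _ => ?_
        rw [div_eq_mul_inv]; ring
      rw [this, hsum, mul_zero]
    rw [h5] at h4
    exact h4.unique red_zero

/-- an element of `K(y')`, `y' ∈ F`, seen in the ambient field lies in `K(y)`. -/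
theorem fle_coe_mem_adjoin {k L : Type*} [Field k] [Field L] [Algebra k L]
    (F : IntermediateField k L) (y : F) (x : k⟮y⟯) :
    ((x : F) : L) ∈ IntermediateField.adjoin k {(y : L)} := by
  have h : ((x : F) : L) ∈ (k⟮y⟯).map F.val := ⟨x, x.2, rfl⟩
  rwa [IntermediateField.adjoin_map, Set.image_singleton] at h

theorem fle_exists_coe_eq {k L : Type*} [Field k] [Field L] [Algebra k L]
    (F : IntermediateField k L) (y : F) (z : L)
    (hz : z ∈ IntermediateField.adjoin k {(y : L)}) : ∃ x : k⟮y⟯, ((x : F) : L) = z := by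
  have h : z ∈ (k⟮y⟯).map F.val := by
    rwa [IntermediateField.adjoin_map, Set.image_singleton]
  obtain ⟨x, hx, rfl⟩ := h
  exact ⟨⟨x, hx⟩, rfl⟩

/-- **`f ≤ n`** for the Gauss valuation, abstract form. -/
theorem fle_finrank_resField_le (F : IntermediateField K (LaurentSeries K)) (Y : LaurentSeries O)
    (hY : iota O Y ∈ F) (ht : Function.Injective (evalT (rho O Y)))
    [FiniteDimensional K⟮(⟨iota O Y, hY⟩ : F)⟯ F] :
    Module.finrank
      (IsLocalRing.ResidueField O)⟮(⟨rho O Y, ⟨iota O Y, hY, red_iota Y⟩⟩ : resField O F)⟯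
        (resField O F) ≤
      Module.finrank K⟮(⟨iota O Y, hY⟩ : F)⟯ F := by
  classical
  apply Module.finrank_le_of_rank_le
  apply rank_le
  intro s hs
  have hlift : ∀ e : resField O F, ∃ f : F, Red O (f : LaurentSeries K) (e : LaurentSeries _) := by
    rintro ⟨e, f, hf, hr⟩
    exact ⟨⟨f, hf⟩, hr⟩
  choose lift hlift' using hlift
  have hli : LinearIndependent K⟮(⟨iota O Y, hY⟩ : F)⟯ (fun i : s => lift (i : resField O F)) := by
    rw [Fintype.linearIndependent_iff]
    intro g hg
    by_contra hcon
    push Not at hcon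
    obtain ⟨i₁, hi₁⟩ := hcon
    obtain ⟨cb, hcb, ⟨i₀, hi₀⟩, hsum⟩ := fle_exists_red_relation (ι := s) Y ht
      (fun i => ((g i : F) : LaurentSeries K)) (fun i => (lift (i : resField O F) : LaurentSeries K))
      (fun i => ((i : resField O F) : LaurentSeries _))
      (fun i => fle_coe_mem_adjoin F ⟨iota O Y, hY⟩ (g i)) (fun i => hlift' _)
      (by
        have := congrArg (fun z : F => (z : LaurentSeries K)) hg
        simpa [Algebra.smul_def] using this)
      ⟨i₁, fun h => hi₁ (Subtype.ext (Subtype.ext h))⟩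
    have hx : ∀ i, ∃ x : (IsLocalRing.ResidueField O)⟮(⟨rho O Y, ⟨iota O Y, hY, red_iota Y⟩⟩ :
        resField O F)⟯, ((x : resField O F) : LaurentSeries _) = cb i := fun i =>
      fle_exists_coe_eq (resField O F) ⟨rho O Y, ⟨iota O Y, hY, red_iota Y⟩⟩ (cb i) (hcb i)
    choose x hx' using hx
    rw [Fintype.linearIndependent_iff] at hs
    have h0 := hs x (by
      apply Subtype.ext
      simp only [Algebra.smul_def]
      push_cast
      rw [← hsum]
      refine Finset.sum_congr rfl fun i _ => ?_
      rw [← hx' i]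
      rfl) i₀
    apply hi₀
    rw [← hx' i₀, h0]
    rfl
  have := hli.fintype_card_le_finrank
  rwa [Fintype.card_coe] at this

/-- a series with transcendental reduction is transcendental. -/
theorem fle_transcendental_of_rho (F : IntermediateField K (LaurentSeries K)) (Y : LaurentSeries O)
    (hY : iota O Y ∈ F) (ht : Function.Injective (evalT (rho O Y))) :
    Transcendental K (⟨iota O Y, hY⟩ : F) := by
  rw [transcendental_iff]
  intro P hP
  by_contra hP0
  obtain ⟨c, P₀, hc, hPP, hP₀⟩ := exists_primitive (O := O) P hP0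
  have h1 : aeval (iota O Y) P = 0 := by
    have := congrArg F.val hP
    rwa [← Polynomial.aeval_algHom_apply, map_zero] at this
  rw [← evalT_eq_aeval, hPP, map_mul, evalT_C, ← iota_evalT] at h1
  have h2 : iota O (evalT Y P₀) ≠ 0 := (red_evalT Y P₀).ne_zero (evalT_rho_ne_zero Y ht hP₀)
  have h3 : (HahnSeries.C c : LaurentSeries K) ≠ 0 := by
    intro h0
    apply hc
    have := congrArg (fun z => HahnSeries.coeff z 0) h0
    simpa using this
  exact mul_ne_zero h3 h2 h1

end Abstract

theorem finrank_redE_le (p M : ℕ) [NeZero M] (hp : p.Prime) (hpM : ¬ p ∣ M)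
    (A : ValuationSubring Qb) (hA : A.LiesOverPrime p) (Y : LaurentSeries A)
    (hY : E.incl A Y ∈ modularFunctionFieldBar M) (hord : (E.red A Y).order < 0) :
    Module.finrank (kA A)⟮redE A Y hY⟯ (EA A M) ≤
      Module.finrank Kbar⟮(⟨E.incl A Y, hY⟩ : FN M)⟯ (FN M) := by
  have ht : Function.Injective (S28.Export.evalT (S28.Export.rho A Y)) :=
    fle_evalT_injective _ hord
  have htr : Transcendental Kbar (⟨E.incl A Y, hY⟩ : FN M) :=
    fle_transcendental_of_rho (modularFunctionFieldBar M) Y hY ht
  have : FiniteDimensional Kbar⟮(⟨E.incl A Y, hY⟩ : FN M)⟯ (FN M) :=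
    (S24.Export.isFF1 M).finite _ htr
  exact fle_finrank_resField_le (modularFunctionFieldBar M) Y hY ht

end Fermat.Agent.S44.F

end
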