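/-
S44 / F / Dual (sub-architect helper100).  NODE REG: reductions of elements of `L(m ∞) ∩ A((q))` are regular outside the
`q`-adic place `ooE` of `EA A M`; if the leading coefficient is a unit the degree is preserved.

* `finrank_of_mem_Linf` (FI0): characteristic zero fundamental identity (`FF.exists_finset_ord_neg`): the only pole of
  `y` is the cusp (`mem_riemannRochSpace_iff`, `Finsupp.single_apply`), with `ord = order = -n` (`S17.W.ord_cusp`).
* `reg_of_unit_lead`: `x̄ = redE Y` has order `-n` (leading coefficient a unit).  `[EA : k(x̄)] ≤ [F : K(y)] = n` (FLE, FI0).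
  Fundamental identity in `EA` (`hasFundId_EA`, `Lib.RR.exists_finset_ord_neg`):
  `∑_{poles} (- ord_v x̄) = [EA : k(x̄)] ≤ n` and `ooE` contributes `n` (`ord_ooE`).  So no other pole, and equality.
* `reg`: `T` from `exists_base`, `a d > m`: `T^a` and `T^a + H` have unit leading coefficient (`= 1`) at `-(a d)` and lie in
  `L(a d ∞)`; `redE H = redE (T^a + H) - redE (T^a)`, `FF.min_ord_le_ord_add`.
* `const_of_reg`: no pole at all ⇒ constant (`Lib.RR.exists_pole`, `FF.exists_const_or_transcendental`).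
-/
import Fermat.Agent.S44.F.Dual.FLE
import Fermat.Agent.S44.F.Dual.FFE
import Fermat.Agent.S44.F.Dual.Base.Main
import Fermat.Agent.Lib.RR.LSpace
import Fermat.Agent.S24.Export.Ramification

set_option autoImplicit false

noncomputable section

namespace Fermat.Agent.S44.F

open ModularCurve AlgebraicCurve IntermediateField Fermat.Agent.S24 Fermat.Agent.GAL

/-! ### Orders of Laurent series -/

theorem reg_order_eq {R : Type*} [Zero R] {x : LaurentSeries R} {d : ℤ} (h0 : ∀ k < d, x.coeff k = 0)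
    (h1 : x.coeff d ≠ 0) : x.order = d := by
  have hx : x ≠ 0 := by
    rintro rfl
    exact h1 rfl
  exact le_antisymm (HahnSeries.order_le_of_coeff_ne_zero h1)
    ((HahnSeries.le_order_iff_forall hx).2 h0)

theorem reg_coeff_red (A : ValuationSubring Qb) (x : LaurentSeries A) (k : ℤ) :
    (E.red A x).coeff k = IsLocalRing.residue A (x.coeff k) := rfl

/-- the coefficients of an element of `L(m ∞)` vanish below `-m`. -/
theorem reg_coeff_of_mem_Linf {M : ℕ} {m : ℕ} {y : FN M} (hy : y ∈ Linf M m) {k : ℤ}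
    (hk : k < -(m : ℤ)) : (y : LaurentSeries Kbar).coeff k = 0 := by
  rcases eq_or_ne y 0 with rfl | hy0
  · rfl
  · have h := (mem_riemannRochSpace_iff.1 hy (S17.W.cusp M)).resolve_left hy0
    rw [Finsupp.single_eq_same, S17.W.ord_cusp M y hy0] at h
    exact HahnSeries.coeff_eq_zero_of_lt_order (lt_of_lt_of_le hk h)

theorem reg_ord_nonneg_of_mem_Linf {M : ℕ} {m : ℕ} {y : FN M} (hy : y ∈ Linf M m)
    {v : Place Kbar (FN M)} (hv : v ≠ S17.W.cusp M) : 0 ≤ v.ord y := by
  rcases eq_or_ne y 0 with rfl | hy0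
  · rw [Place.ord_zero]
  · have h := (mem_riemannRochSpace_iff.1 hy v).resolve_left hy0
    rwa [Finsupp.single_eq_of_ne hv, neg_zero] at h

/-- FI0 -/
theorem finrank_of_mem_Linf (M : ℕ) [NeZero M] (n : ℕ) (hn : 0 < n) (y : FN M)
    (hy : y ∈ Linf M n) (hord : (y : LaurentSeries Kbar).order = -(n : ℤ)) :
    Module.finrank Kbar⟮y⟯ (FN M) = n := by
  have : FF.IsFF1 Kbar (FN M) := S24.Export.isFF1 M
  have hy0 : y ≠ 0 := by
    rintro rfl
    have h0 : ((0 : FN M) : LaurentSeries Kbar).order = 0 := HahnSeries.order_zero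
    rw [h0] at hord
    omega
  have hc : (S17.W.cusp M).ord y = -(n : ℤ) := by rw [S17.W.ord_cusp M y hy0, hord]
  have ht : Transcendental Kbar y := by
    rcases FF.exists_const_or_transcendental (K := Kbar) y with ⟨c, rfl⟩ | ht
    · rw [FF.ord_algebraMap] at hc
      omega
    · exact ht
  obtain ⟨s, hs, hsum⟩ := FF.exists_finset_ord_neg y ht
  have hs' : s = {S17.W.cusp M} := by
    ext v
    rw [hs, Finset.mem_singleton]
    constructor
    · intro hv
      by_contra hne
      have := reg_ord_nonneg_of_mem_Linf hy hne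
      omega
    · rintro rfl
      rw [hc]
      omega
  rw [hs', Finset.sum_singleton, hc] at hsum
  omega

variable (p M : ℕ) [NeZero M] (hp : p.Prime) (hpM : ¬ p ∣ M) (A : ValuationSubring Qb)
  (hA : A.LiesOverPrime p)

include hp hpM hA

theorem reg_of_unit_lead (n : ℕ) (hn : 0 < n) (Y : LaurentSeries A)
    (hY : E.incl A Y ∈ modularFunctionFieldBar M) (hL : (⟨E.incl A Y, hY⟩ : FN M) ∈ Linf M n)
    (hlead : IsUnit (Y.coeff (-(n : ℤ)))) :
    Module.finrank (kA A)⟮redE A Y hY⟯ (EA A M) = n ∧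
      ∀ v : Place (kA A) (EA A M), v ≠ ooE A M → 0 ≤ v.ord (redE A Y hY) := by
  have hFF : FF.IsFF1 (kA A) (EA A M) := isFF1_EA p M hp hpM A hA
  have hFI : Lib.RR.HasFundId (kA A) (EA A M) := hasFundId_EA p M hp hpM A hA
  -- coefficients
  have hY0 : ∀ k : ℤ, k < -(n : ℤ) → Y.coeff k = 0 := by
    intro k hk
    apply Subtype.ext
    exact reg_coeff_of_mem_Linf hL hk
  have hordK : ((⟨E.incl A Y, hY⟩ : FN M) : LaurentSeries Kbar).order = -(n : ℤ) := by
    apply reg_order_eq
    · intro k hk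
      exact reg_coeff_of_mem_Linf hL hk
    · intro h
      have h1 : Y.coeff (-(n : ℤ)) = 0 := Subtype.ext h
      rw [h1] at hlead
      exact not_isUnit_zero hlead
  have hordk : (E.red A Y).order = -(n : ℤ) := by
    apply reg_order_eq
    · intro k hk
      rw [reg_coeff_red, hY0 k hk, map_zero]
    · rw [reg_coeff_red]
      exact (hlead.map (IsLocalRing.residue A)).ne_zero
  have hneg : (E.red A Y).order < 0 := by
    rw [hordk]
    omega
  have hle := finrank_redE_le p M hp hpM A hA Y hY hneg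
  rw [finrank_of_mem_Linf M n hn _ hL hordK] at hle
  have hx0 : redE A Y hY ≠ 0 := by
    intro h
    have h1 : E.red A Y = 0 := congrArg Subtype.val h
    rw [h1, HahnSeries.order_zero] at hneg
    exact lt_irrefl _ hneg
  have ht : Transcendental (kA A) (redE A Y hY) :=
    transcendental_of_order_neg (iotaE A M) _ hneg
  have hoo : (ooE A M).ord (redE A Y hY) = -(n : ℤ) := by
    rw [ord_ooE A M _ hx0, coe_redE, hordk]
  obtain ⟨s, hs, hsum⟩ := Lib.RR.exists_finset_ord_neg (redE A Y hY) ht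
  classical
  have hmem : ooE A M ∈ s := by
    rw [hs, hoo]
    omega
  rw [← Finset.add_sum_erase s _ hmem, hoo] at hsum
  have hneg' : ∀ v ∈ s.erase (ooE A M), v.ord (redE A Y hY) < 0 := fun v hv =>
    (hs v).1 (Finset.mem_of_mem_erase hv)
  have hle0 : ∑ v ∈ s.erase (ooE A M), v.ord (redE A Y hY) ≤ 0 :=
    Finset.sum_nonpos fun v hv => (hneg' v hv).le
  refine ⟨by omega, fun v hv => ?_⟩
  by_contra hcon
  have hvs : v ∈ s.erase (ooE A M) := Finset.mem_erase.2 ⟨hv, (hs v).2 (not_le.1 hcon)⟩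
  have := Finset.sum_neg hneg' ⟨v, hvs⟩
  omega

omit hp hpM hA [NeZero M] in
theorem reg_pow_mem_Linf {d : ℕ} {t : FN M} (ht : t ∈ Linf M d) (a : ℕ) :
    t ^ a ∈ Linf M (a * d) := by
  rw [mem_riemannRochSpace_iff] at ht ⊢
  intro v
  rcases ht v with h | h
  · rcases Nat.eq_zero_or_pos a with rfl | ha
    · right
      simp
    · left
      rw [h, zero_pow ha.ne']
  · right
    rw [FF.ord_pow]
    classical
    rw [Finsupp.single_apply] at h ⊢
    split_ifs at h ⊢
    · push_cast
      nlinarith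
    · have ha : (0 : ℤ) ≤ a := Int.natCast_nonneg a
      nlinarith

omit hp hpM hA [NeZero M] in
theorem reg_Linf_mono {m n : ℕ} (h : m ≤ n) : Linf M m ≤ Linf M n := by
  apply Lib.RR.L_mono
  rw [Finsupp.single_le_single]
  exact_mod_cast h

omit hp hpM hA [NeZero M] in
/-- the leading coefficient of a power. -/
theorem reg_coeff_pow {T : LaurentSeries A} {d : ℕ} (h0 : ∀ n : ℤ, n < -(d : ℤ) → T.coeff n = 0)
    (h1 : T.coeff (-(d : ℤ)) = 1) (a : ℕ) : (T ^ a).coeff (-((a * d : ℕ) : ℤ)) = 1 := by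
  have hord : T.order = -(d : ℤ) := reg_order_eq h0 (by rw [h1]; exact one_ne_zero)
  have hlc : T.leadingCoeff = 1 := by rw [HahnSeries.leadingCoeff_eq, hord, h1]
  have hlc' : ∀ a : ℕ, (T ^ a).leadingCoeff = 1 := by
    intro a
    induction a with
    | zero => simp
    | succ a ih => rw [pow_succ, HahnSeries.leadingCoeff_mul, ih, hlc, one_mul]
  have h2 := hlc' a
  rw [HahnSeries.leadingCoeff_eq, HahnSeries.order_pow, hord] at h2
  rw [← h2]
  congr 1
  push_cast
  simp

theorem reg (m : ℕ) (H : LaurentSeries A) (hH : E.incl A H ∈ modularFunctionFieldBar M)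
    (hL : (⟨E.incl A H, hH⟩ : FN M) ∈ Linf M m) (v : Place (kA A) (EA A M)) (hv : v ≠ ooE A M) :
    0 ≤ v.ord (redE A H hH) := by
  obtain ⟨d, T, hT, hd, -, hT0, hT1, hTL⟩ := exists_base p M hp hpM A hA
  set n : ℕ := (m + 1) * d with hn
  have hmn : m < n := by
    rw [hn]
    nlinarith
  have hn0 : 0 < n := lt_of_le_of_lt (Nat.zero_le _) hmn
  -- `T ^ a`
  have e1 : E.incl A (T ^ (m + 1)) = (((⟨E.incl A T, hT⟩ : FN M) ^ (m + 1) : FN M) :
      LaurentSeries Kbar) := by
    rw [map_pow]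
    rfl
  have hP : E.incl A (T ^ (m + 1)) ∈ modularFunctionFieldBar M := by
    rw [e1]
    exact Subtype.property _
  have hPL : (⟨E.incl A (T ^ (m + 1)), hP⟩ : FN M) ∈ Linf M n := by
    have : (⟨E.incl A (T ^ (m + 1)), hP⟩ : FN M) = (⟨E.incl A T, hT⟩ : FN M) ^ (m + 1) :=
      Subtype.ext e1
    rw [this]
    exact reg_pow_mem_Linf M hTL (m + 1)
  have hPc : (T ^ (m + 1)).coeff (-(n : ℤ)) = 1 := reg_coeff_pow A hT0 hT1 (m + 1)
  -- `T ^ a + H`
  have hS : E.incl A (T ^ (m + 1) + H) ∈ modularFunctionFieldBar M := by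
    rw [map_add]
    exact add_mem hP hH
  have hSL : (⟨E.incl A (T ^ (m + 1) + H), hS⟩ : FN M) ∈ Linf M n := by
    have : (⟨E.incl A (T ^ (m + 1) + H), hS⟩ : FN M) =
        (⟨E.incl A (T ^ (m + 1)), hP⟩ : FN M) + ⟨E.incl A H, hH⟩ := Subtype.ext (map_add _ _ _)
    rw [this]
    exact add_mem hPL (reg_Linf_mono M hmn.le hL)
  have hHc : H.coeff (-(n : ℤ)) = 0 := by
    apply Subtype.ext
    exact reg_coeff_of_mem_Linf hL (by omega)
  have hSc : (T ^ (m + 1) + H).coeff (-(n : ℤ)) = 1 := by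
    rw [HahnSeries.coeff_add, hPc, hHc, add_zero]
  have h1 := (reg_of_unit_lead p M hp hpM A hA n hn0 _ hP hPL (by rw [hPc]; exact isUnit_one)).2 v hv
  have h2 := (reg_of_unit_lead p M hp hpM A hA n hn0 _ hS hSL (by rw [hSc]; exact isUnit_one)).2 v hv
  have e : redE A H hH = redE A _ hS - redE A _ hP := by
    apply Subtype.ext
    show E.red A H = E.red A (T ^ (m + 1) + H) - E.red A (T ^ (m + 1))
    rw [map_add, add_sub_cancel_left]
  rw [← FF.mem_iff_ord_nonneg] at h1 h2 ⊢
  rw [e]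
  exact sub_mem h2 h1

theorem const_of_reg (m : ℕ) (H : LaurentSeries A) (hH : E.incl A H ∈ modularFunctionFieldBar M)
    (hL : (⟨E.incl A H, hH⟩ : FN M) ∈ Linf M m) (hpos : ∀ n : ℤ, n < 0 → (E.red A H).coeff n = 0) :
    ∃ c : kA A, E.red A H = HahnSeries.C c := by
  have hFF : FF.IsFF1 (kA A) (EA A M) := isFF1_EA p M hp hpM A hA
  have hFI : Lib.RR.HasFundId (kA A) (EA A M) := hasFundId_EA p M hp hpM A hA
  rcases FF.exists_const_or_transcendental (K := kA A) (redE A H hH) with ⟨c, hc⟩ | ht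
  · refine ⟨c, ?_⟩
    have h1 := congrArg (iotaE A M) hc
    rw [AlgHom.commutes, iotaE_apply, coe_redE, algebraMap_laurentSeries_eq_single] at h1
    exact h1
  · exfalso
    obtain ⟨v, hv⟩ := Lib.RR.exists_pole ht
    have hx0 : redE A H hH ≠ 0 := by
      intro h
      rw [h, Place.ord_zero] at hv
      exact lt_irrefl _ hv
    have hvoo : v = ooE A M := by
      by_contra hne
      have := reg p M hp hpM A hA m H hH hL v hne
      omega
    rw [hvoo, ord_ooE A M _ hx0, coe_redE] at hv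
    have hr0 : E.red A H ≠ 0 := fun h => hx0 (Subtype.ext h)
    exact hr0 (HahnSeries.coeff_order_eq_zero.1 (hpos _ hv))

end Fermat.Agent.S44.F

end
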