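/-
S44 / F / Dual (helper100).  The genus of the function field of `X₀(M)` is the dimension of `S₂(Γ₀(M))`:
`#W[2] = 2^(2g)` (Kummer theory + S27), `W[2] ≃ Hom_{par,ell}(Γ₀(M), ℤ/2)` (multiplier isomorphism), and
`#Hom_{par,ell}(Γ₀(M), ℤ/2) = 2^(2 dim S₂)` (S16).
-/
import Fermat.Agent.GAL.Mult.Statement
import Fermat.Agent.GAL.Genus.Kummer

set_option autoImplicit false

namespace Fermat.Agent.S44.F

open AlgebraicCurve CongruenceSubgroup Fermat.Agent.S24 Fermat.Agent.GAL

theorem genusFF_eq_finrank_cuspForm (M : ℕ) [NeZero M] :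
    genusFF Kbar (FN M) = Module.finrank ℂ (CuspForm (Gamma0 M) 2) := by
  obtain ⟨e, -⟩ := Mult.exists_multEquiv M 2 (by norm_num)
  have h1 := Genus.card_W M 2 (by norm_num)
  have h2 := S16.Lift.card_homPE M 2 (by norm_num)
  rw [Nat.card_congr e.toEquiv, h2] at h1
  have := Nat.pow_right_injective (le_refl 2) h1
  omega

end Fermat.Agent.S44.F
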