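/-
S44 / F / Dual (helper227).  NODE (LIN), Mathlib only: linear algebra over a valuation ring.

`O` a valuation subring of `K` with residue field `k`, `P` a `K`-subspace of `K ^ m`,
`φ ∈ k ^ m` orthogonal to the reductions of all integral vectors of `P`.  Then `φ` is the reduction
of an integral vector `y` orthogonal to `P`.

Proof: induction on `P`.  Pick `0 ≠ v ∈ P`, normalise it at a coordinate `i₀` of largest valuation
(`v i₀ = 1`, `v` integral); `P = K v ⊕ P'`, `P' = {x ∈ P | x i₀ = 0}`; take `y'` for `P'` and put
`y = y' - ⟨v, y'⟩ e_{i₀}`; `⟨v, y'⟩` reduces to `⟨v̄, φ⟩ = 0`.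
-/
import Mathlib

set_option autoImplicit false

namespace Fermat.Agent.S44.F

open IsLocalRing

theorem lin {K : Type*} [Field K] (O : ValuationSubring K) (m : ℕ)
    (P : Submodule K (Fin m → K)) (φ : Fin m → ResidueField O)
    (h : ∀ x : Fin m → O, (fun i => (x i : K)) ∈ P → ∑ i, residue O (x i) * φ i = 0) :
    ∃ y : Fin m → O, (∀ x ∈ P, ∑ i, x i * (y i : K) = 0) ∧ ∀ i, residue O (y i) = φ i := by
  classical
  induction P using WellFoundedLT.induction with
  | ind P ih =>
    by_cases hP : P = ⊥
    · choose y hy using fun i => residue_surjective (R := O) (φ i)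
      refine ⟨y, fun x hx => ?_, hy⟩
      rw [hP, Submodule.mem_bot] at hx
      simp [hx]
    · obtain ⟨v, hvP, hv0⟩ := Submodule.exists_mem_ne_zero_of_ne_bot hP
      obtain ⟨j, hj⟩ : ∃ j, v j ≠ 0 := by
        by_contra hcon
        push Not at hcon
        exact hv0 (funext hcon)
      obtain ⟨i₀, -, hi₀⟩ := Finset.exists_max_image Finset.univ (fun i => O.valuation (v i))
        ⟨j, Finset.mem_univ j⟩
      have hvi₀ : v i₀ ≠ 0 := by
        intro h0
        have h1 := hi₀ j (Finset.mem_univ j)
        rw [h0, map_zero, le_zero_iff, map_eq_zero] at h1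
        exact hj h1
      -- the normalised vector
      have hwO : ∀ i, (v i₀)⁻¹ * v i ∈ O := by
        intro i
        rw [← ValuationSubring.valuation_le_one_iff, map_mul, map_inv₀]
        have h1 := hi₀ i (Finset.mem_univ i)
        have h2 : O.valuation (v i₀) ≠ 0 := (map_ne_zero _).mpr hvi₀
        rw [inv_mul_le_iff₀ (zero_lt_iff.mpr h2), mul_one]
        exact h1
      set w : Fin m → O := fun i => ⟨(v i₀)⁻¹ * v i, hwO i⟩ with hw
      have hwP : (fun i => (w i : K)) ∈ P := by
        have : (fun i => (w i : K)) = (v i₀)⁻¹ • v := by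
          ext i
          simp [hw]
        rw [this]
        exact P.smul_mem _ hvP
      have hwi₀ : (w i₀ : K) = 1 := by
        simp [hw, hvi₀]
      set P' : Submodule K (Fin m → K) :=
        P ⊓ LinearMap.ker (LinearMap.proj i₀ : (Fin m → K) →ₗ[K] K) with hP'
      have hmem' : ∀ x, x ∈ P' ↔ x ∈ P ∧ x i₀ = 0 := by
        intro x
        rw [hP', Submodule.mem_inf, LinearMap.mem_ker, LinearMap.proj_apply]
      have hlt : P' < P := by
        refine lt_of_le_of_ne inf_le_left ?_
        intro heq
        have h1 := hwP
        rw [← heq, hmem'] at h1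
        rw [hwi₀] at h1
        exact one_ne_zero h1.2
      obtain ⟨y', hy'P, hy'φ⟩ := ih P' hlt (fun x hx => h x ((hmem' _).mp hx).1)
      set c : O := ∑ i, w i * y' i with hc
      have hcres : residue O c = 0 := by
        rw [hc, map_sum, ← h w hwP]
        refine Finset.sum_congr rfl fun i _ => ?_
        rw [map_mul, hy'φ]
      refine ⟨fun i => y' i - (if i = i₀ then c else 0), ?_, ?_⟩
      · -- orthogonality
        have hpair : ∀ x : Fin m → K,
            ∑ i, x i * ((y' i - (if i = i₀ then c else 0) : O) : K) =
              ∑ i, x i * (y' i : K) - x i₀ * (c : K) := by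
          intro x
          have : ∀ i, x i * ((y' i - (if i = i₀ then c else 0) : O) : K) =
              x i * (y' i : K) - (if i = i₀ then x i * (c : K) else 0) := by
            intro i
            split_ifs with hi
            · push_cast
              ring
            · simp
          rw [Finset.sum_congr rfl fun i _ => this i, Finset.sum_sub_distrib,
            Finset.sum_ite_eq' Finset.univ i₀, if_pos (Finset.mem_univ _)]
        have hcK : (c : K) = ∑ i, (w i : K) * (y' i : K) := by
          rw [hc]
          push_cast
          rfl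
        intro x hx
        rw [hpair]
        -- decompose `x`
        have hx' : x - x i₀ • (fun i => (w i : K)) ∈ P' := by
          rw [hmem']
          refine ⟨P.sub_mem hx (P.smul_mem _ hwP), ?_⟩
          simp [hwi₀]
        have h1 := hy'P _ hx'
        have h2 : ∑ i, (x - x i₀ • (fun i => (w i : K))) i * (y' i : K) =
            ∑ i, x i * (y' i : K) - x i₀ * ∑ i, (w i : K) * (y' i : K) := by
          rw [Finset.mul_sum, ← Finset.sum_sub_distrib]
          refine Finset.sum_congr rfl fun i _ => ?_
          simp only [Pi.sub_apply, Pi.smul_apply, smul_eq_mul]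
          ring
        rw [h2] at h1
        rw [hcK, h1]
      · intro i
        rw [map_sub, hy'φ]
        split_ifs
        · rw [hcres, sub_zero]
        · rw [map_zero, sub_zero]

end Fermat.Agent.S44.F
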