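/-
S44 / F / Dual.  NODE `DLin` (task F-DUAL-LIN): the statement `DLin` of `NodesA.lean` is `lin` of
`Dual/Lin.lean` (helper227).
-/
import Fermat.Agent.S44.F.Dual.Lin
import Fermat.Agent.S44.F.Dual.NodesA

set_option autoImplicit false

namespace Fermat.Agent.S44.F

theorem dLin : DLin := fun _ _ O m P φ h => lin O m P φ h

end Fermat.Agent.S44.F
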