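/-
S44 / F / Dual (sub-architect helper100), NODE TRANSFER, abstract part (owner helper294).

* `isFF1_of_algHom`   : a subfield (containing the constants) of a function field in one variable is a
                        function field in one variable.
* `dvd_ord_of_algHom` : if the divisor of `u ∈ F` is divisible by `n`, so is the divisor of `φ u ∈ F'`
                        (`φ : F → F'` a `k`-embedding): every place of `F'` is trivial on `F` or restricts
                        to a place of `F`, with some ramification index.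
-/
import Fermat.Agent.S37.RegInt

set_option autoImplicit false

noncomputable section

namespace Fermat.Agent.S44.F

open AlgebraicCurve IntermediateField Fermat.Agent.S24

/-- finiteness descends along an embedding -/
theorem finiteDimensional_adjoin_of_algHom {k F F' : Type*} [Field k] [Field F] [Field F']
    [Algebra k F] [Algebra k F'] (φ : F →ₐ[k] F') (x : F) [FiniteDimensional k⟮φ x⟯ F'] :
    FiniteDimensional k⟮x⟯ F := by
  have hmap : (k⟮x⟯).map φ = k⟮φ x⟯ := by
    rw [IntermediateField.adjoin_map, Set.image_singleton]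
  have hmem : ∀ a : k⟮x⟯, φ (a : F) ∈ k⟮φ x⟯ := by
    intro a
    rw [← hmap]
    exact ⟨a, a.2, rfl⟩
  have h := lift_rank_le_of_surjective_injective (R := k⟮x⟯) (R' := k⟮φ x⟯) (M := F) (M' := F')
    (fun a => ⟨φ (a : F), hmem a⟩) (φ : F →+ F') (by
      rintro ⟨b, hb⟩
      rw [← hmap] at hb
      obtain ⟨a, ha, rfl⟩ := hb
      exact ⟨⟨a, ha⟩, rfl⟩) φ.toRingHom.injective (by
      intro r m
      rw [IntermediateField.smul_def, IntermediateField.smul_def, smul_eq_mul, smul_eq_mul]
      exact map_mul φ _ _)
  have h1 : Module.rank k⟮x⟯ F < Cardinal.aleph0 := by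
    rw [← Cardinal.lift_lt_aleph0]
    refine lt_of_le_of_lt h ?_
    rw [Cardinal.lift_lt_aleph0]
    exact Module.rank_lt_aleph0 _ _
  exact Module.rank_lt_aleph0_iff.1 h1

/-- a subfield of a function field in one variable is a function field in one variable -/
theorem isFF1_of_algHom {k F F' : Type*} [Field k] [Field F] [Field F'] [Algebra k F]
    [Algebra k F'] [FF.IsFF1 k F'] (φ : F →ₐ[k] F') : FF.IsFF1 k F := by
  constructor
  intro x hx
  have hx' : Transcendental k (φ x) := fun halg =>
    hx ((isAlgebraic_algHom_iff φ φ.toRingHom.injective).1 halg)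
  have : FiniteDimensional k⟮φ x⟯ F' := FF.IsFF1.finite _ hx'
  exact finiteDimensional_adjoin_of_algHom φ x

/-- TRANSFER, abstract form -/
theorem dvd_ord_of_algHom {k F F' : Type*} [Field k] [IsAlgClosed k] [Field F] [Field F']
    [Algebra k F] [Algebra k F'] [FF.IsFF1 k F] (φ : F →ₐ[k] F') (n : ℤ) (u : F)
    (h : ∀ v : Place k F, n ∣ v.ord u) (w : Place k F') : n ∣ w.ord (φ u) := by
  rcases eq_or_ne u 0 with rfl | hu
  · simp
  have hinj : ∀ f : F, f ≠ 0 → φ f ≠ 0 := fun f hf => by
    simpa using hf
  have hK : ∀ a : k, algebraMap k F a ∈ w.toValuationSubring.comap φ.toRingHom := by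
    intro a
    rw [ValuationSubring.mem_comap]
    change φ (algebraMap k F a) ∈ _
    rw [AlgHom.commutes]
    exact w.algebraMap_mem' a
  by_cases hV : w.toValuationSubring.comap φ.toRingHom = ⊤
  · have h1 : u ∈ w.toValuationSubring.comap φ.toRingHom := by
      rw [hV]
      exact ValuationSubring.mem_top u
    have h2 : u⁻¹ ∈ w.toValuationSubring.comap φ.toRingHom := by
      rw [hV]
      exact ValuationSubring.mem_top _
    rw [ValuationSubring.mem_comap] at h1 h2
    have h3 : 0 ≤ w.ord (φ u) := FF.ord_nonneg_of_mem w h1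
    have h4 : 0 ≤ w.ord (φ u⁻¹) := FF.ord_nonneg_of_mem w h2
    rw [map_inv₀, w.ord_inv] at h4
    have h5 : w.ord (φ u) = 0 := by omega
    rw [h5]
    exact dvd_zero n
  · obtain ⟨m, -, hm⟩ := FF.exists_eq_mul_ord
      (S37.RegIntAux.placeOfValuationSubring (w.toValuationSubring.comap φ.toRingHom) hK hV)
      (fun f => w.ord (φ f))
      (fun f g hf hg => by
        change w.ord (φ (f * g)) = _
        rw [map_mul, w.ord_mul (hinj f hf) (hinj g hg)])
      (fun f _ => (FF.mem_iff_ord_nonneg w).symm)
    rw [hm u hu]
    exact Dvd.dvd.mul_left (h _) m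

end Fermat.Agent.S44.F

end
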