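/-
S44 / F / Dual (sub-architect helper100), NODE TRANSFER (owner helper294): places of `EA A M` versus places
of `Fk A M`.  The abstract part is in `TransferAbs.lean`.
-/
import Fermat.Agent.S44.F.Dual.TransferAbs
import Fermat.Agent.S44.F.Dual.FFE

set_option autoImplicit false

noncomputable section

namespace Fermat.Agent.S44.F

open ModularCurve AlgebraicCurve IntermediateField Fermat.Agent.S24 Fermat.Agent.GAL

variable (p M : ℕ) [NeZero M] (hp : p.Prime) (hpM : ¬ p ∣ M) (A : ValuationSubring Qb)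
  (hA : A.LiesOverPrime p)

include hp hpM hA

/-- `Fk A M` is a function field in one variable -/
theorem isFF1_Fk : FF.IsFF1 (kA A) (Fk A M) := by
  have : FF.IsFF1 (kA A) (EA A M) := isFF1_EA p M hp hpM A hA
  exact isFF1_of_algHom (IntermediateField.inclusion (Fk_le_EAf M A))

/-- TRANSFER -/
theorem dvd_ord_EA (ubar : Fk A M) (hdiv : ∀ v : Place (kA A) (Fk A M), (p : ℤ) ∣ v.ord ubar)
    (w : Place (kA A) (EA A M)) :
    (p : ℤ) ∣ w.ord (⟨(ubar : LaurentSeries (kA A)), Fk_le_EAf M A ubar.2⟩ : EA A M) := by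
  have : FF.IsFF1 (kA A) (Fk A M) := isFF1_Fk p M hp hpM A hA
  exact dvd_ord_of_algHom (IntermediateField.inclusion (Fk_le_EAf M A)) (p : ℤ) ubar hdiv w

end Fermat.Agent.S44.F

end
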