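/-
S44 / F / Dual (helper100; series lemma by helper227).  NODE `DOrd0`: the constant term of `dl ū` is the `q`-order
of `ū` modulo `p`, which vanishes because the `q`-adic place `ooE` is a place of `EA A M`.
-/
import Fermat.Agent.S44.F.Dual.NodesA
import Fermat.Agent.S44.F.Dual.Transfer
import Fermat.Agent.GAL.E.Frob

set_option autoImplicit false

noncomputable section

namespace Fermat.Agent.S44.F

open ModularCurve AlgebraicCurve Fermat.Agent.S24 Fermat.Agent.GAL

/-- the constant term of `dl u` is the order of `u` -/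
theorem Ord0_coeff_zero_dl {k : Type*} [Field k] (u : LaurentSeries k) (hu : u ≠ 0) :
    (dl u).coeff 0 = (u.order : k) := by
  have h1 := LaurentSeries.single_order_mul_powerSeriesPart u
  set g := LaurentSeries.powerSeriesPart u with hg
  have hg0 : PowerSeries.constantCoeff g ≠ 0 := by
    rw [← PowerSeries.coeff_zero_eq_constantCoeff_apply, hg, LaurentSeries.powerSeriesPart_coeff]
    simpa using HahnSeries.coeff_order_eq_zero.not.2 hu
  have hgne : (g : LaurentSeries k) ≠ 0 := by
    intro h
    rw [h, mul_zero] at h1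
    exact hu h1.symm
  have h2 : (g : LaurentSeries k) * ((g⁻¹ : PowerSeries k) : LaurentSeries k) = 1 := by
    rw [← PowerSeries.coe_mul, PowerSeries.mul_inv_cancel g hg0, PowerSeries.coe_one]
  obtain ⟨ψ, hψ⟩ := exists_theta_coe g
  have hψ0 : PowerSeries.constantCoeff ψ = 0 := by
    have := congrArg (fun z : LaurentSeries k => z.coeff 0) hψ
    simp only [theta_coeff] at this
    rw [← Nat.cast_zero, LaurentSeries.coeff_coe_powerSeries] at this
    simpa using this
  have h3 : dl (g : LaurentSeries k) = ((ψ * g⁻¹ : PowerSeries k) : LaurentSeries k) := by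
    unfold dl
    rw [PowerSeries.coe_mul, hψ, div_eq_iff hgne, mul_assoc,
      mul_comm _ (g : LaurentSeries k), h2, mul_one]
  have h4 : (((ψ * g⁻¹ : PowerSeries k) : LaurentSeries k)).coeff 0 = 0 := by
    rw [← Nat.cast_zero, LaurentSeries.coeff_coe_powerSeries,
      PowerSeries.coeff_zero_eq_constantCoeff_apply, map_mul, hψ0, zero_mul]
  conv_lhs => rw [← h1]
  rw [dl_mul (HahnSeries.single_ne_zero one_ne_zero) hgne, dl_single, h3, HahnSeries.coeff_add,
    h4, add_zero, HahnSeries.C_apply, HahnSeries.coeff_single_same]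

theorem dOrd0 : DOrd0 := by
  intro p M _ hp hpM A hA ubar hu0 hdiv
  have : CharP (kA A) p := E.charP_residueField A p hp hA
  have hu0' : (ubar : LaurentSeries (kA A)) ≠ 0 := fun h => hu0 (Subtype.ext h)
  set u' : EA A M := ⟨(ubar : LaurentSeries (kA A)), Fk_le_EAf M A ubar.2⟩ with hu'
  have hu'0 : u' ≠ 0 := fun h => hu0' (congrArg Subtype.val h)
  rw [Ord0_coeff_zero_dl _ hu0']
  have h1 := dvd_ord_EA p M hp hpM A hA ubar hdiv (ooE A M)
  rw [ord_ooE A M u' hu'0] at h1
  obtain ⟨c, hc⟩ := h1
  have h2 : (ubar : LaurentSeries (kA A)).order = (p : ℤ) * c := hc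
  rw [h2]
  push_cast
  rw [CharP.cast_eq_zero, zero_mul]

end Fermat.Agent.S44.F

end
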