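/-
S44 / F / Dual (proofs helper227; statements helper100).  NODE RES': the constant term of `h̄ · dl ū`
vanishes for `h ∈ L(m ∞) ∩ A((q))`, `ū ∈ EA A M` with divisor divisible by `p`.
-/
import Fermat.Agent.S44.F.Dual.Reg
import Fermat.Agent.S44.F.Res.Main
import Fermat.Agent.GAL.E.Frob
import Fermat.Agent.GAL.E.Bound

set_option autoImplicit false

noncomputable section

namespace Fermat.Agent.S44.F

open ModularCurve AlgebraicCurve IntermediateField Fermat.Agent.S24 Fermat.Agent.GAL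

/-- the expansion of an element of `L(n ∞)` starts in degree `≥ -n` -/
theorem coeff_eq_zero_of_mem_Linf {M : ℕ} (A : ValuationSubring Qb) (n : ℕ) (Y : LaurentSeries A)
    (hY : E.incl A Y ∈ modularFunctionFieldBar M) (hL : (⟨E.incl A Y, hY⟩ : FN M) ∈ Linf M n)
    (i : ℤ) (hi : i < -(n : ℤ)) : Y.coeff i = 0 := by
  have h := mem_riemannRochSpace_iff.mp hL (S17.W.cusp M)
  rw [Finsupp.single_eq_same] at h
  rcases h with h | h
  · have h1 : E.incl A Y = 0 := congrArg Subtype.val h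
    have h2 : Y = 0 := E.incl_injective A (by rw [h1, map_zero])
    rw [h2, HahnSeries.coeff_zero]
  · have h0 : (⟨E.incl A Y, hY⟩ : FN M) ≠ 0 ∨ (⟨E.incl A Y, hY⟩ : FN M) = 0 := (em _).symm
    rcases h0 with h0 | h0
    · rw [S17.W.ord_cusp M _ h0] at h
      have h1 : (E.incl A Y).coeff i = 0 :=
        HahnSeries.coeff_eq_zero_of_lt_order (lt_of_lt_of_le hi h)
      exact Subtype.ext h1
    · have h1 : E.incl A Y = 0 := congrArg Subtype.val h0
      have h2 : Y = 0 := E.incl_injective A (by rw [h1, map_zero])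
      rw [h2, HahnSeries.coeff_zero]

theorem order_red_of_unit_lead {M : ℕ} (A : ValuationSubring Qb) (n : ℕ) (Y : LaurentSeries A)
    (hY : E.incl A Y ∈ modularFunctionFieldBar M) (hL : (⟨E.incl A Y, hY⟩ : FN M) ∈ Linf M n)
    (hlead : IsUnit (Y.coeff (-(n : ℤ)))) : (E.red A Y).order = -(n : ℤ) := by
  refine B.order_eq_of_coeff ?_ ?_
  · rw [E.coeff_red]
    exact fun h => ((IsLocalRing.residue_eq_zero_iff _).mp h) hlead
  · intro i hi
    rw [E.coeff_red, coeff_eq_zero_of_mem_Linf A n Y hY hL i hi, map_zero]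

theorem Linf_mono (M : ℕ) {m n : ℕ} (h : m ≤ n) : Linf M m ≤ Linf M n := by
  intro f hf
  rw [mem_riemannRochSpace_iff] at hf ⊢
  intro v
  rcases hf v with h0 | h0
  · exact Or.inl h0
  · refine Or.inr (le_trans ?_ h0)
    by_cases hv : v = S17.W.cusp M
    · subst hv
      rw [Finsupp.single_eq_same, Finsupp.single_eq_same]
      omega
    · rw [Finsupp.single_eq_of_ne hv, Finsupp.single_eq_of_ne hv]

theorem pow_mem_Linf (M : ℕ) {d : ℕ} {f : FN M} (hf : f ∈ Linf M d) (a : ℕ) :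
    f ^ a ∈ Linf M (a * d) := by
  rw [mem_riemannRochSpace_iff] at hf ⊢
  intro v
  rcases hf v with h0 | h0
  · rcases Nat.eq_zero_or_pos a with rfl | ha
    · refine Or.inr ?_
      rw [pow_zero, Place.ord_one]
      by_cases hv : v = S17.W.cusp M
      · subst hv
        rw [Finsupp.single_eq_same]
        simp
      · rw [Finsupp.single_eq_of_ne hv]
        simp
    · exact Or.inl (by rw [h0, zero_pow ha.ne'])
  · refine Or.inr ?_
    rw [FF.ord_pow]
    by_cases hv : v = S17.W.cusp M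
    · subst hv
      rw [Finsupp.single_eq_same] at h0 ⊢
      push_cast
      nlinarith
    · rw [Finsupp.single_eq_of_ne hv] at h0 ⊢
      have : (0 : ℤ) ≤ (a : ℤ) * v.ord f := mul_nonneg (by positivity) (by simpa using h0)
      simpa using this

variable (p M : ℕ) [NeZero M] (hp : p.Prime) (hpM : ¬ p ∣ M) (A : ValuationSubring Qb)
  (hA : A.LiesOverPrime p)

include hp hpM hA

theorem coeff_zero_of_unit_lead (ubar : EA A M) (hu0 : ubar ≠ 0)
    (hdiv : ∀ w : Place (kA A) (EA A M), (p : ℤ) ∣ w.ord ubar) (n : ℕ) (hn : 0 < n) (hpn : ¬ p ∣ n)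
    (Y : LaurentSeries A) (hY : E.incl A Y ∈ modularFunctionFieldBar M)
    (hL : (⟨E.incl A Y, hY⟩ : FN M) ∈ Linf M n) (hlead : IsUnit (Y.coeff (-(n : ℤ)))) :
    (E.red A Y * dl (ubar : LaurentSeries (kA A))).coeff 0 = 0 := by
  have : Fact p.Prime := ⟨hp⟩
  have : CharP (kA A) p := E.charP_residueField A p hp hA
  have hfin := (reg_of_unit_lead p M hp hpM A hA n hn Y hY hL hlead).1
  have : FiniteDimensional (kA A)⟮redE A Y hY⟯ (EA A M) :=
    FiniteDimensional.of_finrank_pos (by rw [hfin]; exact hn)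
  exact res_main p (iotaE A M) (redE A Y hY) (jE A M)⁻¹ ubar n hn hpn
    (order_red_of_unit_lead A n Y hY hL hlead) (order_jE_inv A M) hfin.le hu0 hdiv

/-- RES' -/
theorem coeff_zero_red_mul_dl (ubar : EA A M) (hu0 : ubar ≠ 0)
    (hdiv : ∀ w : Place (kA A) (EA A M), (p : ℤ) ∣ w.ord ubar) (m : ℕ)
    (H : LaurentSeries A) (hH : E.incl A H ∈ modularFunctionFieldBar M)
    (hL : (⟨E.incl A H, hH⟩ : FN M) ∈ Linf M m) :
    (E.red A H * dl (ubar : LaurentSeries (kA A))).coeff 0 = 0 := by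
  obtain ⟨d, T, hT, hd, hpd, hTlow, hTlead, hTL⟩ := exists_base p M hp hpM A hA
  set a : ℕ := p * m + 1 with ha
  set n : ℕ := a * d with hn
  have hn0 : 0 < n := Nat.mul_pos (by omega) hd
  have hpa : ¬ p ∣ a := by
    intro h
    have : p ∣ 1 := (Nat.dvd_add_right (Dvd.intro m rfl)).mp h
    exact hp.one_lt.ne' (Nat.dvd_one.mp this)
  have hpn : ¬ p ∣ n := fun h => (hp.dvd_mul.mp h).elim hpa hpd
  have hmn : m < n := by
    have h1 : m < a := by
      have : m ≤ p * m := Nat.le_mul_of_pos_left m hp.pos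
      omega
    exact lt_of_lt_of_le h1 (Nat.le_mul_of_pos_right a hd)
  -- `T ^ a`
  have hTa : E.incl A (T ^ a) ∈ modularFunctionFieldBar M := by
    rw [map_pow]
    exact pow_mem hT a
  have hTaL : (⟨E.incl A (T ^ a), hTa⟩ : FN M) ∈ Linf M n := by
    have h1 := pow_mem_Linf M hTL a
    have h2 : (⟨E.incl A (T ^ a), hTa⟩ : FN M) = (⟨E.incl A T, hT⟩ : FN M) ^ a :=
      Subtype.ext (by simp)
    rw [h2]
    exact h1
  have hTalead : (T ^ a).coeff (-(n : ℤ)) = 1 := by
    have h1 := S28.coeff_pow_of_ordGE (f := T) (a := -(d : ℤ)) hTlow a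
    rw [hTlead, one_pow] at h1
    rw [← h1]
    congr 1
    rw [hn]
    push_cast
    ring
  -- `T ^ a + H`
  have hS : E.incl A (T ^ a + H) ∈ modularFunctionFieldBar M := by
    rw [map_add]
    exact add_mem hTa hH
  have hSL : (⟨E.incl A (T ^ a + H), hS⟩ : FN M) ∈ Linf M n := by
    have h2 : (⟨E.incl A (T ^ a + H), hS⟩ : FN M) =
        (⟨E.incl A (T ^ a), hTa⟩ : FN M) + ⟨E.incl A H, hH⟩ := Subtype.ext (by simp)
    rw [h2]
    exact add_mem hTaL (Linf_mono M hmn.le hL)
  have hSlead : (T ^ a + H).coeff (-(n : ℤ)) = 1 := by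
    rw [HahnSeries.coeff_add, hTalead,
      coeff_eq_zero_of_mem_Linf A m H hH hL _ (by omega), add_zero]
  have h1 := coeff_zero_of_unit_lead p M hp hpM A hA ubar hu0 hdiv n hn0 hpn (T ^ a) hTa hTaL
    (by rw [hTalead]; exact isUnit_one)
  have h2 := coeff_zero_of_unit_lead p M hp hpM A hA ubar hu0 hdiv n hn0 hpn (T ^ a + H) hS hSL
    (by rw [hSlead]; exact isUnit_one)
  rw [map_add, add_mul, HahnSeries.coeff_add, h1, zero_add] at h2
  exact h2

end Fermat.Agent.S44.F

end
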