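/-
S44 / F / Dual (helper100).  NODE `DRes`: the constant term of `h̄ · dl ū` vanishes, for `h ∈ L(m ∞) ∩ A((q))` and
`ū ∈ Fk A M` with divisor divisible by `p`.  Wiring of `ResPrime.lean` (RES') and `Transfer.lean`.
-/
import Fermat.Agent.S44.F.Dual.NodesA
import Fermat.Agent.S44.F.Dual.ResPrime
import Fermat.Agent.S44.F.Dual.Transfer

set_option autoImplicit false

noncomputable section

namespace Fermat.Agent.S44.F

open ModularCurve AlgebraicCurve Fermat.Agent.S24 Fermat.Agent.GAL

theorem dRes : DRes := by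
  intro p M _ hp hpM A hA ubar hu0 hdiv m H hH hL
  have hu0' : (ubar : LaurentSeries (kA A)) ≠ 0 := fun h => hu0 (Subtype.ext h)
  exact coeff_zero_red_mul_dl p M hp hpM A hA
    (⟨(ubar : LaurentSeries (kA A)), Fk_le_EAf M A ubar.2⟩ : EA A M)
    (fun h => hu0' (congrArg Subtype.val h)) (dvd_ord_EA p M hp hpM A hA ubar hdiv) m H hH hL

end Fermat.Agent.S44.F

end
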