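/-
S44 / F / Dual (helper100).  **FDualA**: `dl ū` is, modulo `q^(m+1)`, the reduction of the `q`-expansion of a cusp form of
weight two and level `Γ₀(M')` with coefficients in `A`.  Wiring of the five nodes.
-/
import Fermat.Agent.S44.F.Dual.AsmA
import Fermat.Agent.S44.F.Dual.LinNode
import Fermat.Agent.S44.F.Dual.Res
import Fermat.Agent.S44.F.Dual.Ord0
import Fermat.Agent.S44.F.Dual.Int.Main
import Fermat.Agent.S44.F.Dim.Main

set_option autoImplicit false

namespace Fermat.Agent.S44.F

theorem fDualA : FDualA := fDualA_of dLin dDim dInt dRes dOrd0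

end Fermat.Agent.S44.F
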